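import Mathlib

/-!
# S14 / AuxPrime / Residue

Elementary lemmas on `p`-th roots modulo a prime ideal, used to relate
splitting of primes in Kummer extensions to power residues.
-/

namespace Fermat.Agent.S14

/-- Two `p`-th roots of the same element which are congruent modulo a prime ideal `Q` not
containing `p` nor the root are equal. -/
theorem ax_eq_of_pow_eq_of_sub_mem {B : Type*} [CommRing B] [IsDomain B] (Q : Ideal B)
    [Q.IsPrime] {p : ℕ} (hp : 0 < p) (hpQ : (p : B) ∉ Q) {α α' : B} (h : α' ^ p = α ^ p)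
    (hα : α ∉ Q) (hsub : α' - α ∈ Q) : α' = α := by
  by_contra hne
  have h1 : (∑ i ∈ Finset.range p, α' ^ i * α ^ (p - 1 - i)) * (α' - α) = α' ^ p - α ^ p :=
    (Commute.all α' α).geom_sum₂_mul p
  rw [h, sub_self] at h1
  have h2 : ∑ i ∈ Finset.range p, α' ^ i * α ^ (p - 1 - i) = 0 := by
    rcases mul_eq_zero.mp h1 with h2 | h2
    · exact h2
    · exact absurd (sub_eq_zero.mp h2) hne
  have hq : Ideal.Quotient.mk Q α' = Ideal.Quotient.mk Q α := Ideal.Quotient.eq.mpr hsub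
  have h3 := congrArg (Ideal.Quotient.mk Q) h2
  simp only [map_sum, map_mul, map_pow, hq, map_zero] at h3
  have h4 : ∀ i ∈ Finset.range p, (Ideal.Quotient.mk Q α) ^ i * (Ideal.Quotient.mk Q α) ^ (p - 1 - i)
      = (Ideal.Quotient.mk Q α) ^ (p - 1) := by
    intro i hi
    rw [← pow_add]
    congr 1
    have := Finset.mem_range.mp hi
    omega
  rw [Finset.sum_congr rfl h4, Finset.sum_const, Finset.card_range, nsmul_eq_mul] at h3
  rcases mul_eq_zero.mp h3 with h5 | h5
  · apply hpQ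
    rw [← Ideal.Quotient.eq_zero_iff_mem, map_natCast]
    exact h5
  · apply hα
    rw [← Ideal.Quotient.eq_zero_iff_mem]
    exact eq_zero_of_pow_eq_zero h5


/-- If `a` is a nonzero `p`-th power modulo the prime `r ≡ 1 (mod p)`, then
`a ^ ((r - 1) / p) ≡ 1 (mod r)` (the easy half of Euler's criterion). -/
theorem ax_euler_pow {p r : ℕ} (hr : r.Prime) (hrp : r % p = 1) {a : ℕ} (hra : ¬ r ∣ a)
    (hx : ∃ x : ZMod r, x ^ p = (a : ZMod r)) : ∃ m : ℕ, a ^ ((r - 1) / p) = 1 + r * m := by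
  have := Fact.mk hr
  obtain ⟨x, hx⟩ := hx
  have hpdvd : p ∣ r - 1 := ⟨r / p, by
    have h := Nat.div_add_mod r p
    rw [hrp] at h
    omega⟩
  have hx0 : x ≠ 0 := by
    rintro rfl
    have hp0 : p ≠ 0 := by
      rintro rfl
      simp at hrp
      exact hr.one_lt.ne' hrp
    rw [zero_pow hp0] at hx
    exact hra ((ZMod.natCast_eq_zero_iff a r).mp hx.symm)
  have h1 : ((a ^ ((r - 1) / p) : ℕ) : ZMod r) = 1 := by
    rw [Nat.cast_pow, ← hx, ← pow_mul, Nat.mul_div_cancel' hpdvd]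
    exact ZMod.pow_card_sub_one_eq_one hx0
  have h2 : ((a ^ ((r - 1) / p) : ℕ) : ZMod r) = ((1 : ℕ) : ZMod r) := by rw [h1, Nat.cast_one]
  rw [ZMod.natCast_eq_natCast_iff] at h2
  have h3 : 1 ≤ a ^ ((r - 1) / p) := Nat.one_le_pow _ _ (Nat.pos_of_ne_zero (by
    rintro rfl
    exact hra (dvd_zero r)))
  obtain ⟨m, hm⟩ := (Nat.modEq_iff_dvd' h3).mp h2.symm
  exact ⟨m, by omega⟩

end Fermat.Agent.S14
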