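import Mathlib
import Fermat.Agent.S14.AuxPrime.Residue

/-!
# S14 / AuxPrime / Frob

Abstract criterion: if a finite group `G` acting on a domain `S` is determined by its action
on a set `Rts` of `p`-th roots of `G`-fixed elements, which are units modulo a prime `Q` not
containing `p`, then the inertia group of `Q` is trivial; if moreover `α ^ N ≡ α (mod Q)` for the
roots (`N` the cardinality of the residue field below), every Frobenius element at `Q` is trivial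
and the residue field of `Q` has at most `N` elements.
-/

namespace Fermat.Agent.S14

open scoped Pointwise
open Polynomial

section abstract

variable {S : Type*} [CommRing S] [IsDomain S] {G : Type*} [Group G] [MulSemiringAction G S]

theorem ax_smul_eq_of_sub_mem (Q : Ideal S) [Q.IsPrime] {p : ℕ} (hp : 0 < p) (hpQ : (p : S) ∉ Q)
    {α : S} (hα : α ∉ Q) (σ : G) (hσ : σ • (α ^ p) = α ^ p) (h : σ • α - α ∈ Q) : σ • α = α :=
  ax_eq_of_pow_eq_of_sub_mem Q hp hpQ (by rw [← smul_pow', hσ]) hα h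

theorem ax_inertia_eq_bot (Q : Ideal S) [Q.IsPrime] {p : ℕ} (hp : 0 < p) (hpQ : (p : S) ∉ Q)
    (Rts : Set S) (hR : ∀ α ∈ Rts, α ∉ Q ∧ ∀ σ : G, σ • (α ^ p) = α ^ p)
    (hgen : ∀ σ : G, (∀ α ∈ Rts, σ • α = α) → σ = 1) : Q.inertia G = ⊥ := by
  rw [eq_bot_iff]
  intro σ hσ
  rw [Subgroup.mem_bot]
  apply hgen
  intro α hα
  exact ax_smul_eq_of_sub_mem Q hp hpQ (hR α hα).1 σ ((hR α hα).2 σ) (hσ α)

theorem ax_frob_eq_one {R : Type*} [CommRing R] [Algebra R S] [SMulCommClass G R S]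
    (Q : Ideal S) [Q.IsPrime] {p : ℕ} (hp : 0 < p) (hpQ : (p : S) ∉ Q)
    (Rts : Set S) (hR : ∀ α ∈ Rts, α ∉ Q ∧ ∀ σ : G, σ • (α ^ p) = α ^ p)
    (hgen : ∀ σ : G, (∀ α ∈ Rts, σ • α = α) → σ = 1)
    (hN : ∀ α ∈ Rts, α ^ Nat.card (R ⧸ Q.under R) - α ∈ Q)
    (σ : G) (hσ : IsArithFrobAt R σ Q) : σ = 1 := by
  apply hgen
  intro α hα
  apply ax_smul_eq_of_sub_mem Q hp hpQ (hR α hα).1 σ ((hR α hα).2 σ)
  have h1 := hσ α
  rw [MulSemiringAction.toAlgHom_apply] at h1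
  have h2 := Q.add_mem h1 (hN α hα)
  rwa [sub_add_sub_cancel] at h2

omit [IsDomain S] in
theorem ax_card_quotient_le {R : Type*} [CommRing R] [Algebra R S] [SMulCommClass G R S]
    (Q : Ideal S) [Q.IsPrime] [Finite (S ⧸ Q)] (hN : 1 < Nat.card (R ⧸ Q.under R))
    (h1 : IsArithFrobAt R (1 : G) Q) : Nat.card (S ⧸ Q) ≤ Nat.card (R ⧸ Q.under R) := by
  classical
  set N := Nat.card (R ⧸ Q.under R) with hNdef
  have := Fintype.ofFinite (S ⧸ Q)
  rw [Nat.card_eq_fintype_card]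
  have hroot : ∀ x : S ⧸ Q, x ^ N = x := by
    intro x
    obtain ⟨x, rfl⟩ := Ideal.Quotient.mk_surjective x
    have h2 := h1.mk_apply x
    rw [MulSemiringAction.toAlgHom_apply, one_smul] at h2
    exact h2.symm
  have hdeg : ((X : (S ⧸ Q)[X]) ^ N - X).natDegree = N := by
    have h1 : (X : (S ⧸ Q)[X]).degree < (X ^ N : (S ⧸ Q)[X]).degree := by
      rw [degree_X_pow, degree_X]
      exact mod_cast hN
    rw [natDegree_eq_of_degree_eq (degree_sub_eq_left_of_degree_lt h1), natDegree_X_pow]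
  have hne : ((X : (S ⧸ Q)[X]) ^ N - X) ≠ 0 := by
    apply ne_zero_of_natDegree_gt (n := 1)
    rw [hdeg]
    exact hN
  have hsub : (Finset.univ : Finset (S ⧸ Q)).val ⊆ ((X : (S ⧸ Q)[X]) ^ N - X).roots := by
    intro x _
    rw [mem_roots hne, IsRoot.def, eval_sub, eval_pow, eval_X, hroot x, sub_self]
  have := card_le_degree_of_subset_roots hsub
  rwa [hdeg, Finset.card_univ] at this

end abstract


/-- A natural number coprime to another natural number lying in a proper ideal does not lie in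
the ideal. -/
theorem ax_natCast_not_mem {S : Type*} [CommRing S] (Q : Ideal S) (hQ : Q ≠ ⊤) {r a : ℕ}
    (hr : (r : S) ∈ Q) (hco : Nat.Coprime a r) : (a : S) ∉ Q := by
  intro ha
  apply hQ
  rw [Ideal.eq_top_iff_one]
  have h := (Nat.isCoprime_iff_coprime.mpr hco)
  obtain ⟨u, v, huv⟩ := h
  have h2 : ((u * (a : ℤ) + v * (r : ℤ) : ℤ) : S) = 1 := by rw [huv]; simp
  rw [← h2]
  push_cast
  exact Q.add_mem (Q.mul_mem_left _ ha) (Q.mul_mem_left _ hr)

section numberField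

open NumberField

variable {k E : Type*} [Field k] [NumberField k] [Field E] [NumberField E] [Algebra k E]
  [IsGalois k E]

/-- Main criterion: let `E/k` be a Galois extension of number fields such that `Gal(E/k)` is
determined by its action on a set `Rts` of `p`-th roots of natural numbers `a`, each a nonzero
`p`-th power modulo the prime `r ≡ 1 (mod p)`. Then every prime `Q` of `E` above a prime `q` of
`k` of absolute norm `r` has trivial inertia group and absolute norm `r`. -/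
theorem ax_inertia_bot_absNorm {p r : ℕ} (hp : p.Prime) (hr : r.Prime) (hrp : r % p = 1)
    (Rts : Set (𝓞 E)) (hgen : ∀ σ : Gal(E/k), (∀ α ∈ Rts, σ • α = α) → σ = 1)
    (hR : ∀ α ∈ Rts, ∃ a : ℕ, α ^ p = (a : 𝓞 E) ∧ ¬ r ∣ a ∧ ∃ x : ZMod r, x ^ p = (a : ZMod r))
    (q : Ideal (𝓞 k)) [q.IsPrime] (hq : Ideal.absNorm q = r)
    (Q : Ideal (𝓞 E)) [Q.IsPrime] [hQq : Q.LiesOver q] :
    Q.inertia Gal(E/k) = ⊥ ∧ Ideal.absNorm Q = r := by
  have hrQ : (r : 𝓞 E) ∈ Q := by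
    have h1 : ((Ideal.absNorm q : ℕ) : 𝓞 k) ∈ q := Ideal.absNorm_mem q
    rw [hq, hQq.over, Ideal.under_def, Ideal.mem_comap, map_natCast] at h1
    exact h1
  have hQtop : Q ≠ ⊤ := Ideal.IsPrime.ne_top'
  have hpr : p ≠ r := by
    rintro rfl
    rw [Nat.mod_self] at hrp
    exact absurd hrp (by norm_num)
  have hpQ : (p : 𝓞 E) ∉ Q :=
    ax_natCast_not_mem Q hQtop hrQ ((Nat.coprime_primes hp hr).mpr hpr)
  have hR' : ∀ α ∈ Rts, α ∉ Q ∧ ∀ σ : Gal(E/k), σ • (α ^ p) = α ^ p := by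
    intro α hα
    obtain ⟨a, ha, hra, -⟩ := hR α hα
    refine ⟨fun hαQ => ?_, fun σ => ?_⟩
    · have : (a : 𝓞 E) ∈ Q := ha ▸ Q.pow_mem_of_mem hαQ p hp.pos
      exact ax_natCast_not_mem Q hQtop hrQ
        ((Nat.Coprime.symm ((Nat.Prime.coprime_iff_not_dvd hr).mpr hra))) this
    · rw [ha]
      exact map_natCast (MulSemiringAction.toRingHom Gal(E/k) (𝓞 E) σ) a
  have hin : Q.inertia Gal(E/k) = ⊥ := ax_inertia_eq_bot Q hp.pos hpQ Rts hR' hgen
  refine ⟨hin, ?_⟩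
  -- the residue field below has `r` elements
  have hcard : Nat.card (𝓞 k ⧸ Q.under (𝓞 k)) = r := by
    rw [← hQq.over, ← hq, Ideal.absNorm_apply, Submodule.cardQuot_apply]
  have hN : ∀ α ∈ Rts, α ^ Nat.card (𝓞 k ⧸ Q.under (𝓞 k)) - α ∈ Q := by
    intro α hα
    obtain ⟨a, ha, hra, hx⟩ := hR α hα
    obtain ⟨m, hm⟩ := ax_euler_pow hr hrp hra hx
    have hpdvd : p ∣ r - 1 := ⟨r / p, by
      have h := Nat.div_add_mod r p
      rw [hrp] at h
      omega⟩
    have hr1 : r = 1 + p * ((r - 1) / p) := by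
      rw [Nat.mul_div_cancel' hpdvd]
      have := hr.one_lt
      omega
    rw [hcard]
    have : α ^ r - α = α * ((r : 𝓞 E) * (m : 𝓞 E)) := by
      conv_lhs => rw [hr1, pow_add, pow_one, pow_mul, ha, ← Nat.cast_pow, hm]
      push_cast
      ring
    rw [this]
    exact Q.mul_mem_left _ (Q.mul_mem_right _ hrQ)
  have hQbot : Q ≠ ⊥ := by
    rintro rfl
    rw [Ideal.mem_bot] at hrQ
    exact hr.ne_zero (by exact_mod_cast hrQ)
  have : Finite (𝓞 E ⧸ Q) := Ideal.finiteQuotientOfFreeOfNeBot Q hQbot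
  obtain ⟨σ, hσ⟩ := IsArithFrobAt.exists_of_isInvariant (𝓞 k) Gal(E/k) Q
  have hσ1 : σ = 1 := ax_frob_eq_one Q hp.pos hpQ Rts hR' hgen hN σ hσ
  subst hσ1
  have hle := ax_card_quotient_le (G := Gal(E/k)) (R := 𝓞 k) Q (by rw [hcard]; exact hr.one_lt) hσ
  rw [hcard] at hle
  have h1 := Ideal.absNorm_pow_inertiaDeg q Q
  rw [hq] at h1
  have h2 : Ideal.absNorm Q = Nat.card (𝓞 E ⧸ Q) := by
    rw [Ideal.absNorm_apply, Submodule.cardQuot_apply]
  have hf := Ideal.inertiaDeg_pos Q (𝓞 k)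
  have h3 : r ≤ r ^ Q.inertiaDeg (𝓞 k) := by
    calc r = r ^ 1 := (pow_one r).symm
      _ ≤ r ^ Q.inertiaDeg (𝓞 k) := Nat.pow_le_pow_right hr.pos hf
  rw [h2]
  rw [h1, h2] at h3
  exact le_antisymm hle h3


/-- Same hypotheses as `ax_inertia_bot_absNorm`: `e = f = 1` (current Mathlib API). -/
theorem ax_ramificationIdx_inertiaDeg_eq_one {p r : ℕ} (hp : p.Prime) (hr : r.Prime)
    (hrp : r % p = 1)
    (Rts : Set (𝓞 E)) (hgen : ∀ σ : Gal(E/k), (∀ α ∈ Rts, σ • α = α) → σ = 1)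
    (hR : ∀ α ∈ Rts, ∃ a : ℕ, α ^ p = (a : 𝓞 E) ∧ ¬ r ∣ a ∧ ∃ x : ZMod r, x ^ p = (a : ZMod r))
    (q : Ideal (𝓞 k)) [q.IsPrime] (hq : Ideal.absNorm q = r)
    (Q : Ideal (𝓞 E)) [Q.IsPrime] [hQq : Q.LiesOver q] :
    Q.ramificationIdx (𝓞 k) = 1 ∧ Q.inertiaDeg (𝓞 k) = 1 := by
  obtain ⟨hin, hN⟩ := ax_inertia_bot_absNorm hp hr hrp Rts hgen hR q hq Q
  constructor
  · rw [← Ideal.ramificationIdxIn_eq_ramificationIdx q Q Gal(E/k),
      ← Ideal.card_inertia_eq_ramificationIdxIn (G := Gal(E/k)) q Q, hin]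
    exact Subgroup.card_bot
  · have h1 := Ideal.absNorm_pow_inertiaDeg q Q
    rw [hq, hN] at h1
    exact Nat.pow_right_injective hr.two_le (h1.trans (pow_one r).symm)

/-- Same hypotheses as `ax_inertia_bot_absNorm`: `e = f = 1` (legacy Mathlib API). -/
theorem ax_ramificationIdx'_inertiaDeg'_eq_one {p r : ℕ} (hp : p.Prime) (hr : r.Prime)
    (hrp : r % p = 1)
    (Rts : Set (𝓞 E)) (hgen : ∀ σ : Gal(E/k), (∀ α ∈ Rts, σ • α = α) → σ = 1)
    (hR : ∀ α ∈ Rts, ∃ a : ℕ, α ^ p = (a : 𝓞 E) ∧ ¬ r ∣ a ∧ ∃ x : ZMod r, x ^ p = (a : ZMod r))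
    (q : Ideal (𝓞 k)) [q.IsPrime] (hq : Ideal.absNorm q = r)
    (Q : Ideal (𝓞 E)) [Q.IsPrime] [hQq : Q.LiesOver q] :
    q.ramificationIdx' Q = 1 ∧ q.inertiaDeg' Q = 1 := by
  obtain ⟨he, hf⟩ := ax_ramificationIdx_inertiaDeg_eq_one hp hr hrp Rts hgen hR q hq Q
  have hq0 : q ≠ ⊥ := by
    rintro rfl
    rw [Ideal.absNorm_bot] at hq
    exact hr.ne_zero hq.symm
  have hQ0 : Q ≠ ⊥ := Ideal.ne_bot_of_liesOver_of_ne_bot hq0 Q
  have : q.IsMaximal := Ideal.IsPrime.isMaximal inferInstance hq0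
  have : Q.IsMaximal := Ideal.IsPrime.isMaximal inferInstance hQ0
  exact ⟨(Ideal.ramificationIdx'_eq_ramificationIdx q Q hq0).trans he,
    (Ideal.inertiaDeg'_eq_inertiaDeg q Q).trans hf⟩

end numberField


/-- If a prime `Q` of a number field `E` has prime absolute norm `r` and `α ∈ 𝓞 E` is a `p`-th
root of the natural number `a`, then `a` is a `p`-th power in `ZMod r`. -/
theorem ax_exists_pow_eq_of_absNorm_eq {E : Type*} [Field E] [NumberField E] {p r : ℕ}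
    (hr : r.Prime) (Q : Ideal (NumberField.RingOfIntegers E)) (hQ : Ideal.absNorm Q = r)
    {α : NumberField.RingOfIntegers E} {a : ℕ}
    (hα : α ^ p = (a : NumberField.RingOfIntegers E)) :
    ∃ x : ZMod r, x ^ p = (a : ZMod r) := by
  have hcard : Nat.card (NumberField.RingOfIntegers E ⧸ Q) = r := by
    rw [← hQ, Ideal.absNorm_apply, Submodule.cardQuot_apply]
  have : Finite (NumberField.RingOfIntegers E ⧸ Q) :=
    Nat.finite_of_card_ne_zero (by rw [hcard]; exact hr.ne_zero)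
  have := Fintype.ofFinite (NumberField.RingOfIntegers E ⧸ Q)
  have hcard' : Fintype.card (NumberField.RingOfIntegers E ⧸ Q) = r := by
    rw [← Nat.card_eq_fintype_card, hcard]
  let e : ZMod r ≃+* (NumberField.RingOfIntegers E ⧸ Q) := ZMod.ringEquivOfPrime _ hr hcard'
  refine ⟨e.symm (Ideal.Quotient.mk Q α), ?_⟩
  rw [← map_pow, ← map_pow, hα, map_natCast, map_natCast]

end Fermat.Agent.S14
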