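import Mathlib

/-!
# S14 / AuxPrime / Kummer

Elementary Kummer theory: if `k` contains a primitive `p`-th root of unity (`p` prime),
`E = k(α)` with `α ^ p = a ∈ k` is Galois over `k`, and `b ∈ k` is a `p`-th power in `E`,
then `b = a ^ m * γ ^ p` for some `m : ℕ` and `γ ∈ k`.
-/

namespace Fermat.Agent.S14

theorem ax_kummer_dep {k E : Type*} [Field k] [Field E] [Algebra k E] [FiniteDimensional k E]
    [IsGalois k E] {p : ℕ} [hpF : Fact p.Prime] {ζ : k} (hζ : IsPrimitiveRoot ζ p) {a b : k}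
    (ha : a ≠ 0) (hb : b ≠ 0) {α : E} (hα : α ^ p = algebraMap k E a)
    (hgen : ∀ σ : Gal(E/k), σ α = α → σ = 1)
    {β : E} (hβ : β ^ p = algebraMap k E b) :
    ∃ (m : ℕ) (γ : k), b = a ^ m * γ ^ p := by
  classical
  have hp0 : p ≠ 0 := hpF.out.ne_zero
  have : NeZero p := ⟨hp0⟩
  set ζ' : E := algebraMap k E ζ with hζ'def
  have hζ' : IsPrimitiveRoot ζ' p := hζ.map_of_injective (algebraMap k E).injective
  have hα0 : α ≠ 0 := by
    rintro rfl
    rw [zero_pow hp0] at hα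
    exact ha ((map_eq_zero (algebraMap k E)).mp hα.symm)
  have hβ0 : β ≠ 0 := by
    rintro rfl
    rw [zero_pow hp0] at hβ
    exact hb ((map_eq_zero (algebraMap k E)).mp hβ.symm)
  have key : ∀ (x : E) (c : k), x ≠ 0 → x ^ p = algebraMap k E c →
      ∀ σ : Gal(E/k), (σ x / x) ^ p = 1 := by
    intro x c hx hxc σ
    rw [div_pow, ← map_pow, hxc, AlgEquiv.commutes, ← hxc, div_self (pow_ne_zero _ hx)]
  by_cases htriv : ∀ σ : Gal(E/k), σ α = α
  · have hβfix : ∀ σ : Gal(E/k), σ β = β := fun σ => by rw [hgen σ (htriv σ)]; rfl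
    obtain ⟨γ, hγ⟩ := IntermediateField.mem_bot.mp ((IsGalois.mem_bot_iff_fixed β).mpr hβfix)
    refine ⟨0, γ, ?_⟩
    apply (algebraMap k E).injective
    rw [pow_zero, one_mul, map_pow, hγ, hβ]
  · push Not at htriv
    obtain ⟨σ₀, hσ₀⟩ := htriv
    set ξ := σ₀ α / α with hξdef
    have hξp : ξ ^ p = 1 := key α a hα0 hα σ₀
    have hξ1 : ξ ≠ 1 := by
      intro h
      apply hσ₀
      rw [hξdef, div_eq_one_iff_eq hα0] at h
      exact h
    have hξ : IsPrimitiveRoot ξ p := by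
      have := orderOf_eq_prime hξp hξ1
      rw [← this]
      exact IsPrimitiveRoot.orderOf ξ
    have hξ0 : ξ ≠ 0 := hξ.ne_zero hp0
    obtain ⟨i₀, -, hi₀⟩ := hζ'.eq_pow_of_pow_eq_one hξp
    have hξfix : ∀ σ : Gal(E/k), σ ξ = ξ := by
      intro σ
      rw [← hi₀, map_pow, hζ'def, AlgEquiv.commutes]
    have hσα : σ₀ α = ξ * α := by rw [hξdef, div_mul_cancel₀ _ hα0]
    have hpow : ∀ t : ℕ, (σ₀ ^ t) α = ξ ^ t * α := by
      intro t
      induction t with
      | zero => simp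
      | succ t ih =>
        rw [pow_succ', AlgEquiv.mul_apply, ih, map_mul, map_pow, hξfix, hσα, pow_succ]
        ring
    have hcyc : ∀ σ : Gal(E/k), ∃ t : ℕ, σ = σ₀ ^ t := by
      intro σ
      obtain ⟨t, -, ht⟩ := hξ.eq_pow_of_pow_eq_one (key α a hα0 hα σ)
      refine ⟨t, ?_⟩
      have h1 : σ α = (σ₀ ^ t) α := by
        rw [hpow t, ht, div_mul_cancel₀ _ hα0]
      have h2 : ((σ₀ ^ t)⁻¹ * σ) α = α := by
        rw [AlgEquiv.mul_apply, h1]
        exact (σ₀ ^ t).symm_apply_apply α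
      have h3 := hgen _ h2
      exact (inv_mul_eq_one.mp h3).symm
    obtain ⟨m, -, hm⟩ := hξ.eq_pow_of_pow_eq_one (key β b hβ0 hβ σ₀)
    have hσβ : σ₀ β = ξ ^ m * β := by rw [hm, div_mul_cancel₀ _ hβ0]
    set δ := β / α ^ m with hδdef
    have hδ₀ : σ₀ δ = δ := by
      rw [hδdef, map_div₀, map_pow, hσα, hσβ, mul_pow]
      field_simp
    have hδfix : ∀ σ : Gal(E/k), σ δ = δ := by
      intro σ
      obtain ⟨t, rfl⟩ := hcyc σ
      induction t with
      | zero => simp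
      | succ t ih => rw [pow_succ', AlgEquiv.mul_apply, ih, hδ₀]
    obtain ⟨γ, hγ⟩ := IntermediateField.mem_bot.mp ((IsGalois.mem_bot_iff_fixed δ).mpr hδfix)
    refine ⟨m, γ, ?_⟩
    apply (algebraMap k E).injective
    rw [map_mul, map_pow, map_pow, hγ, ← hα, ← hβ, hδdef, div_pow, ← pow_mul, ← pow_mul,
      mul_comm p m, mul_div_cancel₀ _ (pow_ne_zero _ hα0)]


/-- A rational number whose `p`-th power is a positive natural number `n` forces `n` to be a
`p`-th power of a natural number. -/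
theorem ax_nat_pow_of_rat_pow {p n : ℕ} {τ : ℚ} (h : (n : ℚ) = τ ^ p) :
    ∃ s : ℕ, n = s ^ p := by
  have hden : τ.den ^ p = 1 := by
    rw [← Rat.den_pow, ← h]
    exact Rat.den_natCast n
  by_cases hp0 : p = 0
  · subst hp0
    refine ⟨1, ?_⟩
    have : (n : ℚ) = 1 := by simpa using h
    exact_mod_cast this
  have hden1 : τ.den = 1 := (Nat.pow_eq_one.mp hden).resolve_right hp0
  have hτ : τ = (τ.num : ℚ) := by
    conv_lhs => rw [← Rat.num_div_den τ, hden1]
    simp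
  have h2 : ((n : ℤ) : ℚ) = ((τ.num ^ p : ℤ) : ℚ) := by
    push_cast
    rw [← hτ]
    exact h
  have h3 : (n : ℤ) = τ.num ^ p := by exact_mod_cast h2
  refine ⟨τ.num.natAbs, ?_⟩
  have h4 := congrArg Int.natAbs h3
  rwa [Int.natAbs_natCast, Int.natAbs_pow] at h4

/-- If a positive natural number is a `p`-th power in the `p`-th cyclotomic field, it is a
`p`-th power of a natural number (norm argument, `gcd (p - 1, p) = 1`). -/
theorem ax_nat_pow_of_pow_in_cyclotomic {p : ℕ} [hpF : Fact p.Prime] {k : Type*} [Field k]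
    [NumberField k] [IsCyclotomicExtension {p} ℚ k] {n : ℕ} (hn : 0 < n) {γ : k}
    (h : (n : k) = γ ^ p) : ∃ s : ℕ, n = s ^ p := by
  have hp := hpF.out
  have : NeZero p := ⟨hp.ne_zero⟩
  have hfin : Module.finrank ℚ k = p - 1 := by
    rw [IsCyclotomicExtension.finrank (n := p) k (Polynomial.cyclotomic.irreducible_rat hp.pos),
      Nat.totient_prime hp]
  have hnorm : ((n : ℚ)) ^ (p - 1) = (Algebra.norm ℚ γ) ^ p := by
    rw [← map_pow, ← h, ← hfin, ← Algebra.norm_algebraMap (S := k), map_natCast]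
  set ρ := Algebra.norm ℚ γ with hρ
  have hn0 : (n : ℚ) ≠ 0 := by exact_mod_cast hn.ne'
  have hρ0 : ρ ≠ 0 := by
    intro h0
    rw [h0, zero_pow hp.ne_zero] at hnorm
    exact pow_ne_zero _ hn0 hnorm
  apply ax_nat_pow_of_rat_pow (p := p) (τ := (n : ℚ) / ρ)
  rw [div_pow, ← hnorm]
  have : (n : ℚ) ^ p = (n : ℚ) * (n : ℚ) ^ (p - 1) := by
    rw [← pow_succ', Nat.sub_add_cancel hp.one_lt.le]
  rw [this, mul_div_assoc, div_self (pow_ne_zero _ hn0), mul_one]

end Fermat.Agent.S14
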