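import Mathlib
import Fermat.Agent.S14.AuxPrime.Kummer
import Fermat.Agent.S14.AuxPrime.Frob

/-!
# S14 / AuxPrime / Tower

The Kummer tower `k ⊂ E₁ = k(a^{1/p}) ⊂ E₂ = E₁(b^{1/p})` over the `p`-th cyclotomic field `k`.
-/

namespace Fermat.Agent.S14

open Polynomial NumberField

section splitting

variable {k E : Type*} [Field k] [Field E] [Algebra k E] {p : ℕ}

theorem ax_splitting_root (hp : p ≠ 0) (a : k) [IsSplittingField k E (X ^ p - C a)] :
    ∃ α : E, α ^ p = algebraMap k E a := by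
  have hs := IsSplittingField.splits E (X ^ p - C a : k[X])
  have hdeg : ((X ^ p - C a : k[X]).map (algebraMap k E)).degree ≠ 0 := by
    rw [Polynomial.map_sub, Polynomial.map_pow, map_X, map_C, degree_X_pow_sub_C (Nat.pos_of_ne_zero hp)]
    exact_mod_cast hp
  obtain ⟨α, hα⟩ := hs.exists_eval_eq_zero hdeg
  refine ⟨α, ?_⟩
  rw [Polynomial.map_sub, Polynomial.map_pow, map_X, map_C, eval_sub, eval_pow, eval_X, eval_C,
    sub_eq_zero] at hα
  exact hα

theorem ax_splitting_gen [hpF : Fact p.Prime] {ζ : k} (hζ : IsPrimitiveRoot ζ p) {a : k}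
    (ha : a ≠ 0) [IsSplittingField k E (X ^ p - C a)] {α : E} (hα : α ^ p = algebraMap k E a)
    (σ : Gal(E/k)) (h : σ α = α) : σ = 1 := by
  have hp0 : p ≠ 0 := hpF.out.ne_zero
  have : NeZero p := ⟨hp0⟩
  have hζ' : IsPrimitiveRoot (algebraMap k E ζ) p :=
    hζ.map_of_injective (algebraMap k E).injective
  have hα0 : α ≠ 0 := by
    rintro rfl
    rw [zero_pow hp0] at hα
    exact ha ((map_eq_zero (algebraMap k E)).mp hα.symm)
  have hne : (X ^ p - C a : k[X]) ≠ 0 := X_pow_sub_C_ne_zero (Nat.pos_of_ne_zero hp0) a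
  have hadj := IsSplittingField.adjoin_rootSet E (X ^ p - C a : k[X])
  have hEq : Set.EqOn (σ : E →ₐ[k] E) ((1 : Gal(E/k)) : E →ₐ[k] E)
      ((X ^ p - C a : k[X]).rootSet E) := by
    intro y hy
    rw [mem_rootSet] at hy
    have hy2 : y ^ p = algebraMap k E a := by
      have := hy.2
      simpa [sub_eq_zero] using this
    have h1 : (y / α) ^ p = 1 := by
      rw [div_pow, hy2, hα, div_self]
      rw [← hα]
      exact pow_ne_zero _ hα0
    obtain ⟨i, -, hi⟩ := hζ'.eq_pow_of_pow_eq_one h1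
    have hy3 : y = (algebraMap k E ζ) ^ i * α := by
      rw [hi, div_mul_cancel₀ _ hα0]
    simp only [AlgEquiv.coe_toAlgHom, AlgEquiv.one_apply]
    rw [hy3, map_mul, map_pow, AlgEquiv.commutes, h]
  have := AlgHom.ext_of_adjoin_eq_top hadj hEq
  exact AlgEquiv.coe_toAlgHom_injective this

end splitting


section tower

theorem ax_isGalois_E₁ {p : ℕ} (a : ℕ) {k E₁ : Type*} [Field k] [NumberField k]
    [Field E₁] [Algebra k E₁] [IsSplittingField k E₁ (X ^ p - C (a : k))] : IsGalois k E₁ := by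
  have : FiniteDimensional k E₁ := IsSplittingField.finiteDimensional E₁ (X ^ p - C (a : k))
  have : Normal k E₁ := Normal.of_isSplittingField (X ^ p - C (a : k))
  exact ⟨⟩

theorem ax_isSplittingField_E₂ {p : ℕ} (hp0 : 0 < p) (a b : ℕ) {k E₁ E₂ : Type*} [Field k]
    [Field E₁] [Field E₂] [Algebra k E₁] [Algebra E₁ E₂] [Algebra k E₂] [IsScalarTower k E₁ E₂]
    [IsSplittingField k E₁ (X ^ p - C (a : k))]
    [IsSplittingField E₁ E₂ ((X ^ p - C (b : k)).map (algebraMap k E₁))] :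
    IsSplittingField k E₂ ((X ^ p - C (a : k)) * (X ^ p - C (b : k))) :=
  IsSplittingField.mul (K := E₁) E₂ _ _ (X_pow_sub_C_ne_zero hp0 _) (X_pow_sub_C_ne_zero hp0 _)

theorem ax_isGalois_E₂ {p : ℕ} (hp0 : 0 < p) (a b : ℕ) {k : Type*} (E₁ : Type*) {E₂ : Type*}
    [Field k] [NumberField k]
    [Field E₁] [Field E₂] [Algebra k E₁] [Algebra E₁ E₂] [Algebra k E₂] [IsScalarTower k E₁ E₂]
    [IsSplittingField k E₁ (X ^ p - C (a : k))]
    [IsSplittingField E₁ E₂ ((X ^ p - C (b : k)).map (algebraMap k E₁))] : IsGalois k E₂ := by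
  have := ax_isSplittingField_E₂ hp0 a b (k := k) (E₁ := E₁) (E₂ := E₂)
  have : FiniteDimensional k E₂ :=
    IsSplittingField.finiteDimensional E₂ ((X ^ p - C (a : k)) * (X ^ p - C (b : k)))
  have : Normal k E₂ := Normal.of_isSplittingField ((X ^ p - C (a : k)) * (X ^ p - C (b : k)))
  exact ⟨⟩

theorem ax_finrank_lt {p : ℕ} [hpF : Fact p.Prime] (a b : ℕ)
    {k E₁ E₂ : Type*} [Field k] [NumberField k] [IsCyclotomicExtension {p} ℚ k]
    [Field E₁] [Field E₂] [Algebra k E₁] [Algebra E₁ E₂] [Algebra k E₂] [IsScalarTower k E₁ E₂]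
    [IsSplittingField k E₁ (X ^ p - C (a : k))]
    [IsSplittingField E₁ E₂ ((X ^ p - C (b : k)).map (algebraMap k E₁))]
    (ha : 0 < a) (hb : 0 < b) (hind : ∀ i s : ℕ, b * a ^ i ≠ s ^ p) :
    Module.finrank k E₁ < Module.finrank k E₂ := by
  have hp := hpF.out
  have hp0 : p ≠ 0 := hp.ne_zero
  have : FiniteDimensional k E₁ := IsSplittingField.finiteDimensional E₁ (X ^ p - C (a : k))
  have : FiniteDimensional E₁ E₂ :=
    IsSplittingField.finiteDimensional E₂ ((X ^ p - C (b : k)).map (algebraMap k E₁))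
  have : IsGalois k E₁ := ax_isGalois_E₁ (p := p) a
  by_contra hlt
  push Not at hlt
  have hmul := Module.finrank_mul_finrank k E₁ E₂
  have hpos₁ : 0 < Module.finrank k E₁ := Module.finrank_pos
  have hpos₂ : 0 < Module.finrank E₁ E₂ := Module.finrank_pos
  have h1 : Module.finrank E₁ E₂ = 1 := by nlinarith
  have hbij := Algebra.finrank_eq_one_iff_bijective_algebraMap.mp h1
  have hmap : (X ^ p - C (b : k)).map (algebraMap k E₁) = X ^ p - C ((b : ℕ) : E₁) := by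
    simp
  have inst : IsSplittingField E₁ E₂ (X ^ p - C ((b : ℕ) : E₁)) := by
    rw [← hmap]
    infer_instance
  obtain ⟨β₂, hβ₂⟩ := ax_splitting_root (E := E₂) hp0 ((b : ℕ) : E₁)
  obtain ⟨β, rfl⟩ := hbij.2 β₂
  have hβ : β ^ p = algebraMap k E₁ (b : k) := by
    apply hbij.1
    rw [map_pow, hβ₂]
    simp
  obtain ⟨α, hα⟩ := ax_splitting_root (E := E₁) hp0 (a : k)
  have : NeZero p := ⟨hp0⟩
  obtain ⟨ζ, hζ⟩ := IsCyclotomicExtension.exists_isPrimitiveRoot ℚ k (Set.mem_singleton p) hp0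
  have hak : (a : k) ≠ 0 := by exact_mod_cast ha.ne'
  have hbk : (b : k) ≠ 0 := by exact_mod_cast hb.ne'
  obtain ⟨m, γ, hmγ⟩ := ax_kummer_dep hζ hak hbk hα (ax_splitting_gen hζ hak hα) hβ
  have hkey : ((b * a ^ ((p - 1) * m) : ℕ) : k) = ((a : k) ^ m * γ) ^ p := by
    push_cast
    rw [hmγ, mul_pow, ← pow_mul]
    have : m * p = m + (p - 1) * m := by
      have := hp.one_lt
      obtain ⟨t, rfl⟩ : ∃ t, p = t + 1 := ⟨p - 1, by omega⟩
      simp
      ring
    rw [this, pow_add]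
    ring
  obtain ⟨s, hs⟩ := ax_nat_pow_of_pow_in_cyclotomic (p := p)
    (Nat.mul_pos hb (pow_pos ha _)) hkey
  exact hind _ s hs

theorem ax_mod_eq_one {p : ℕ} [hpF : Fact p.Prime] {k : Type*} [Field k] [NumberField k]
    [IsCyclotomicExtension {p} ℚ k] (q : Ideal (𝓞 k)) {r : ℕ} (hr : r.Prime)
    (hq : Ideal.absNorm q = r) (hrp : r ≠ p) : r % p = 1 := by
  have hp := hpF.out
  have : NeZero p := ⟨hp.ne_zero⟩
  have : Fact r.Prime := ⟨hr⟩
  obtain ⟨ζ, hζ⟩ := IsCyclotomicExtension.exists_isPrimitiveRoot ℚ k (Set.mem_singleton p) hp.ne_zero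
  have hζO := hζ.toInteger_isPrimitiveRoot
  set z := hζ.toInteger with hz
  have hsum : ∑ i ∈ Finset.range p, z ^ i = 0 := hζO.geom_sum_eq_zero hp.one_lt
  have hcard : Nat.card (𝓞 k ⧸ q) = r := by
    rw [← hq, Ideal.absNorm_apply, Submodule.cardQuot_apply]
  have : Finite (𝓞 k ⧸ q) := Nat.finite_of_card_ne_zero (by rw [hcard]; exact hr.ne_zero)
  have := Fintype.ofFinite (𝓞 k ⧸ q)
  have hcard' : Fintype.card (𝓞 k ⧸ q) = r := by rw [← Nat.card_eq_fintype_card, hcard]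
  let e : ZMod r ≃+* (𝓞 k ⧸ q) := ZMod.ringEquivOfPrime _ hr hcard'
  have hqtop : q ≠ ⊤ := by
    rintro rfl
    rw [Ideal.absNorm_top] at hq
    exact hr.one_lt.ne hq
  have hrq : (r : 𝓞 k) ∈ q := hq ▸ Ideal.absNorm_mem q
  have hpq : (p : 𝓞 k) ∉ q :=
    ax_natCast_not_mem q hqtop hrq ((Nat.coprime_primes hp hr).mpr (Ne.symm hrp))
  set y : ZMod r := e.symm (Ideal.Quotient.mk q z) with hy
  have hyp : y ^ p = 1 := by
    rw [hy, ← map_pow, ← map_pow, hζO.pow_eq_one, map_one, map_one]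
  have hy1 : y ≠ 1 := by
    intro h
    have h1 : Ideal.Quotient.mk q z = 1 := by
      have := congrArg e h
      rwa [hy, RingEquiv.apply_symm_apply, map_one] at this
    apply hpq
    rw [← Ideal.Quotient.eq_zero_iff_mem]
    have h2 := congrArg (Ideal.Quotient.mk q) hsum
    rw [map_sum] at h2
    simp only [map_pow, h1, one_pow, Finset.sum_const, Finset.card_range, nsmul_eq_mul, mul_one,
      map_zero] at h2
    rw [map_natCast]
    exact h2
  have hy0 : y ≠ 0 := by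
    rintro h
    rw [h, zero_pow hp.ne_zero] at hyp
    exact zero_ne_one hyp
  have hord : orderOf y = p := orderOf_eq_prime hyp hy1
  have hdvd : p ∣ r - 1 := hord ▸ ZMod.orderOf_dvd_card_sub_one hy0
  obtain ⟨t, ht⟩ := hdvd
  have hr1 : r = 1 + p * t := by
    have := hr.one_lt
    omega
  rw [hr1, Nat.add_mul_mod_self_left, Nat.mod_eq_of_lt hp.one_lt]


/-- A `p`-th root of a natural number in a number field, as an algebraic integer. -/
theorem ax_exists_integer_root {E : Type*} [Field E] [NumberField E] {p : ℕ} (hp0 : p ≠ 0)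
    {y : E} {a : ℕ} (hy : y ^ p = (a : E)) : ∃ x : 𝓞 E, (x : E) = y ∧ x ^ p = (a : 𝓞 E) := by
  have hint : IsIntegral ℤ y :=
    IsIntegral.of_pow (Nat.pos_of_ne_zero hp0) (hy ▸ isIntegral_natCast a)
  refine ⟨IsIntegralClosure.mk' (𝓞 E) y hint, IsIntegralClosure.algebraMap_mk' _ y hint, ?_⟩
  apply RingOfIntegers.ext
  change algebraMap (𝓞 E) E (_ ^ p) = algebraMap (𝓞 E) E (a : 𝓞 E)
  rw [map_pow, map_natCast, IsIntegralClosure.algebraMap_mk']
  exact hy

theorem ax_residue_of_prime_E₁ {p : ℕ} (hp0 : p ≠ 0) (a : ℕ) {k E₁ : Type*} [Field k]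
    [Field E₁] [NumberField E₁] [Algebra k E₁] [IsSplittingField k E₁ (X ^ p - C (a : k))]
    {r : ℕ} (hr : r.Prime) (Q : Ideal (𝓞 E₁)) (hQ : Ideal.absNorm Q = r) :
    ∃ x : ZMod r, x ^ p = (a : ZMod r) := by
  obtain ⟨α, hα⟩ := ax_splitting_root (E := E₁) hp0 (a : k)
  rw [map_natCast] at hα
  obtain ⟨x, -, hx⟩ := ax_exists_integer_root hp0 hα
  exact ax_exists_pow_eq_of_absNorm_eq hr Q hQ hx

theorem ax_split_E₂ {p : ℕ} [hpF : Fact p.Prime] (a b : ℕ) {k : Type*} (E₁ : Type*) {E₂ : Type*}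
    [Field k] [NumberField k]
    [Field E₁] [Field E₂] [NumberField E₂] [Algebra k E₁] [Algebra E₁ E₂] [Algebra k E₂]
    [IsScalarTower k E₁ E₂]
    [IsSplittingField k E₁ (X ^ p - C (a : k))]
    [IsSplittingField E₁ E₂ ((X ^ p - C (b : k)).map (algebraMap k E₁))]
    [IsGalois k E₂]
    {r : ℕ} (hr : r.Prime) (hrp : r % p = 1) (hra : ¬ r ∣ a) (hrb : ¬ r ∣ b)
    (hxa : ∃ x : ZMod r, x ^ p = (a : ZMod r)) (hxb : ∃ x : ZMod r, x ^ p = (b : ZMod r))
    (q : Ideal (𝓞 k)) [q.IsPrime] (hq : Ideal.absNorm q = r)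
    (Q : Ideal (𝓞 E₂)) [Q.IsPrime] [Q.LiesOver q] :
    (Q.ramificationIdx (𝓞 k) = 1 ∧ Q.inertiaDeg (𝓞 k) = 1) ∧
      (q.ramificationIdx' Q = 1 ∧ q.inertiaDeg' Q = 1) := by
  have hp := hpF.out
  have hsp := ax_isSplittingField_E₂ hp.pos a b (k := k) (E₁ := E₁) (E₂ := E₂)
  set Rts : Set (𝓞 E₂) := {x | x ^ p = (a : 𝓞 E₂) ∨ x ^ p = (b : 𝓞 E₂)} with hRts
  have hgen : ∀ σ : Gal(E₂/k), (∀ α ∈ Rts, σ • α = α) → σ = 1 := by
    intro σ hσ
    have hadj := IsSplittingField.adjoin_rootSet E₂ ((X ^ p - C (a : k)) * (X ^ p - C (b : k)))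
    have hEq : Set.EqOn (σ : E₂ →ₐ[k] E₂) ((1 : Gal(E₂/k)) : E₂ →ₐ[k] E₂)
        (((X ^ p - C (a : k)) * (X ^ p - C (b : k)) : k[X]).rootSet E₂) := by
      intro y hy
      rw [mem_rootSet] at hy
      have hy2 : y ^ p = (a : E₂) ∨ y ^ p = (b : E₂) := by
        have := hy.2
        simpa [sub_eq_zero] using this
      have hx : ∃ x : 𝓞 E₂, (x : E₂) = y ∧ x ∈ Rts := by
        rcases hy2 with h | h
        · obtain ⟨x, hx1, hx2⟩ := ax_exists_integer_root hp.ne_zero h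
          exact ⟨x, hx1, Or.inl hx2⟩
        · obtain ⟨x, hx1, hx2⟩ := ax_exists_integer_root hp.ne_zero h
          exact ⟨x, hx1, Or.inr hx2⟩
      obtain ⟨x, rfl, hxR⟩ := hx
      have := congrArg (algebraMap (𝓞 E₂) E₂) (hσ x hxR)
      simp only [AlgEquiv.coe_toAlgHom, AlgEquiv.one_apply]
      exact this
    exact AlgEquiv.coe_toAlgHom_injective (AlgHom.ext_of_adjoin_eq_top hadj hEq)
  have hR : ∀ α ∈ Rts, ∃ c : ℕ, α ^ p = (c : 𝓞 E₂) ∧ ¬ r ∣ c ∧
      ∃ x : ZMod r, x ^ p = (c : ZMod r) := by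
    intro α hα
    rcases hα with h | h
    · exact ⟨a, h, hra, hxa⟩
    · exact ⟨b, h, hrb, hxb⟩
  exact ⟨ax_ramificationIdx_inertiaDeg_eq_one hp hr hrp Rts hgen hR q hq Q,
    ax_ramificationIdx'_inertiaDeg'_eq_one hp hr hrp Rts hgen hR q hq Q⟩

end tower

end Fermat.Agent.S14
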