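import Mathlib
import Fermat.Agent.S14.AuxPrime.Tower

/-!
# S14 / AuxPrime / Main

Existence of the auxiliary prime of the crossing argument, relative to a density statement
(`D3(b)`: between two Galois extensions `E₁ ⊊ E₂` of a number field `k` there is a prime of `k`
of degree one, outside any finite set, which splits completely in `E₁` but not in `E₂`).

The output is a statement on natural numbers only.
-/

namespace Fermat.Agent.S14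

open Polynomial NumberField

/-- The Kummer tower package: number fields `k ⊆ E₁ ⊆ E₂`, Galois over `k = ℚ(ζ_p)`, with
`E₁ ≠ E₂`, such that for a prime `q` of `k` of prime norm `r ∤ p a b`:
`r ≡ 1 mod p`; if some prime of `E₁` above `q` has norm `r` then `a` is a `p`-th power mod `r`;
if `a` and `b` are `p`-th powers mod `r` then all primes of `E₂` above `q` have `e = f = 1`. -/
theorem ax_tower_package (p : ℕ) [hpF : Fact p.Prime] (a b : ℕ) (ha : 0 < a) (hb : 0 < b)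
    (hind : ∀ i s : ℕ, b * a ^ i ≠ s ^ p) :
    ∃ (k E₁ E₂ : Type) (_ : Field k) (_ : NumberField k) (_ : Field E₁) (_ : NumberField E₁)
      (_ : Field E₂) (_ : NumberField E₂) (_ : Algebra k E₁) (_ : Algebra E₁ E₂) (_ : Algebra k E₂)
      (_ : IsScalarTower k E₁ E₂) (_ : IsGalois k E₁) (_ : IsGalois k E₂),
      Module.finrank k E₁ < Module.finrank k E₂ ∧
      ∀ (q : Ideal (𝓞 k)) [q.IsPrime] (r : ℕ), r.Prime → Ideal.absNorm q = r → r ≠ p →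
        ¬ r ∣ a → ¬ r ∣ b →
        r % p = 1 ∧
        ((∃ Q : Ideal (𝓞 E₁), Ideal.absNorm Q = r) → ∃ x : ZMod r, x ^ p = (a : ZMod r)) ∧
        ((∃ x : ZMod r, x ^ p = (a : ZMod r)) → (∃ x : ZMod r, x ^ p = (b : ZMod r)) →
          ∀ (Q : Ideal (𝓞 E₂)) [Q.IsPrime] [Q.LiesOver q],
            (Q.ramificationIdx (𝓞 k) = 1 ∧ Q.inertiaDeg (𝓞 k) = 1) ∧
            (q.ramificationIdx' Q = 1 ∧ q.inertiaDeg' Q = 1)) := by
  have hp := hpF.out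
  have : NeZero p := ⟨hp.ne_zero⟩
  let k := CyclotomicField p ℚ
  let E₁ := (X ^ p - C (a : k)).SplittingField
  let E₂ := ((X ^ p - C (b : k)).map (algebraMap k E₁)).SplittingField
  have : IsCyclotomicExtension {p} ℚ k := CyclotomicField.isCyclotomicExtension p ℚ
  have nf₁ : NumberField E₁ := NumberField.of_module_finite k E₁
  have nf₂ : NumberField E₂ := NumberField.of_module_finite E₁ E₂
  have g₁ : IsGalois k E₁ := ax_isGalois_E₁ (p := p) a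
  have g₂ : IsGalois k E₂ := ax_isGalois_E₂ hp.pos a b E₁
  refine ⟨k, E₁, E₂, inferInstance, inferInstance, inferInstance, nf₁, inferInstance, nf₂,
    inferInstance, inferInstance, inferInstance, inferInstance, g₁, g₂,
    ax_finrank_lt a b ha hb hind, ?_⟩
  intro q _ r hr hq hrp hra hrb
  refine ⟨ax_mod_eq_one q hr hq hrp, ?_, ?_⟩
  · rintro ⟨Q, hQ⟩
    exact ax_residue_of_prime_E₁ (k := k) hp.ne_zero a hr Q hQ
  · intro hxa hxb Q _ _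
    exact ax_split_E₂ a b E₁ hr (ax_mod_eq_one q hr hq hrp) hra hrb hxa hxb q hq Q

/-- The shape of the density statement `D3(b)` used below. -/
def ax_DensityOracle : Prop :=
  ∀ (k E₁ E₂ : Type) [Field k] [NumberField k] [Field E₁] [NumberField E₁] [Field E₂]
    [NumberField E₂] [Algebra k E₁] [Algebra E₁ E₂] [Algebra k E₂] [IsScalarTower k E₁ E₂]
    [IsGalois k E₁] [IsGalois k E₂],
    Module.finrank k E₁ < Module.finrank k E₂ → ∀ T : Finset (Ideal (𝓞 k)),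
    ∃ q : Ideal (𝓞 k), q.IsPrime ∧ q ∉ T ∧ (Ideal.absNorm q).Prime ∧
      (∀ Q : Ideal (𝓞 E₁), Q.IsPrime → Q.LiesOver q →
        Q.ramificationIdx (𝓞 k) = 1 ∧ Q.inertiaDeg (𝓞 k) = 1) ∧
      ¬ (∀ Q : Ideal (𝓞 E₂), Q.IsPrime → Q.LiesOver q →
        Q.ramificationIdx (𝓞 k) = 1 ∧ Q.inertiaDeg (𝓞 k) = 1)

theorem ax_exists_aux_prime (hD : ax_DensityOracle) (p : ℕ) [hpF : Fact p.Prime] (a b : ℕ)
    (ha : 0 < a) (hb : 0 < b) (hind : ∀ i s : ℕ, b * a ^ i ≠ s ^ p) (S : Finset ℕ) :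
    ∃ r : ℕ, r.Prime ∧ r ∉ S ∧ r % p = 1 ∧ ¬ r ∣ a ∧ ¬ r ∣ b ∧
      (∃ x : ZMod r, x ^ p = (a : ZMod r)) ∧ ¬ ∃ x : ZMod r, x ^ p = (b : ZMod r) := by
  classical
  obtain ⟨k, E₁, E₂, _, _, _, _, _, _, _, _, _, _, _, _, hlt, hpack⟩ :=
    ax_tower_package p a b ha hb hind
  set S' : Finset ℕ := S ∪ {p} ∪ a.primeFactors ∪ b.primeFactors with hS'
  have hfin : {I : Ideal (𝓞 k) | Ideal.absNorm I ∈ S'}.Finite := by
    have : {I : Ideal (𝓞 k) | Ideal.absNorm I ∈ S'} =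
        ⋃ n ∈ S', {I : Ideal (𝓞 k) | Ideal.absNorm I = n} := by
      ext I
      simp
    rw [this]
    exact Set.Finite.biUnion S'.finite_toSet (fun n _ => Ideal.finite_setOfPred_absNorm_eq n)
  obtain ⟨q, hqprime, hqT, hrprime, hsplit₁, hsplit₂⟩ := hD k E₁ E₂ hlt hfin.toFinset
  set r := Ideal.absNorm q with hr
  have hrS' : r ∉ S' := by
    intro h
    apply hqT
    rw [Set.Finite.mem_toFinset]
    exact h
  simp only [hS', Finset.mem_union, Finset.mem_singleton, Nat.mem_primeFactors, not_or,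
    not_and] at hrS'
  obtain ⟨⟨⟨hrS, hrp⟩, hra⟩, hrb⟩ := hrS'
  have hra' : ¬ r ∣ a := fun h => hra hrprime h ha.ne'
  have hrb' : ¬ r ∣ b := fun h => hrb hrprime h hb.ne'
  obtain ⟨hmod, h₁, h₂⟩ := hpack q r hrprime rfl hrp hra' hrb'
  have hq0 : q ≠ ⊥ := by
    rintro rfl
    rw [hr, Ideal.absNorm_bot] at hrprime
    exact Nat.not_prime_zero hrprime
  have hxa : ∃ x : ZMod r, x ^ p = (a : ZMod r) := by
    apply h₁
    obtain ⟨⟨Q, hQp, hQq⟩⟩ := q.nonempty_primesOver (S := 𝓞 E₁)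
    refine ⟨Q, ?_⟩
    have h1 := Ideal.absNorm_pow_inertiaDeg q Q
    rw [(hsplit₁ Q hQp hQq).2, pow_one] at h1
    exact h1.symm
  refine ⟨r, hrprime, hrS, hmod, hra', hrb', hxa, fun hxb => hsplit₂ ?_⟩
  intro Q hQp hQq
  exact (h₂ hxa hxb Q).1


theorem ax_hind {p l₁ l₂ f₁ f₂ c : ℕ} (hp : p.Prime) (hl₁ : l₁.Prime) (hl₂ : l₂.Prime)
    (hne : l₁ ≠ l₂) (hf₁ : ¬ p ∣ f₁) (hf₂ : ¬ p ∣ f₂) :
    ∀ i s : ℕ, l₁ ^ f₁ * (l₂ ^ f₂ * (l₁ ^ f₁) ^ (c * (p - 1))) ^ i ≠ s ^ p := by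
  intro i s h
  have : Fact l₁.Prime := ⟨hl₁⟩
  have : Fact l₂.Prime := ⟨hl₂⟩
  have hnf : l₁ ^ f₁ * (l₂ ^ f₂ * (l₁ ^ f₁) ^ (c * (p - 1))) ^ i =
      l₁ ^ (f₁ + f₁ * (c * (p - 1)) * i) * l₂ ^ (f₂ * i) := by ring
  rw [hnf] at h
  have h1 : l₁ ^ (f₁ + f₁ * (c * (p - 1)) * i) ≠ 0 := pow_ne_zero _ hl₁.ne_zero
  have h2 : l₂ ^ (f₂ * i) ≠ 0 := pow_ne_zero _ hl₂.ne_zero
  have hs : s ≠ 0 := by
    rintro rfl
    rw [zero_pow hp.ne_zero] at h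
    exact mul_ne_zero h1 h2 h
  have hv₂ := congrArg (padicValNat l₂) h
  rw [padicValNat.mul h1 h2, padicValNat.pow l₁, padicValNat.prime_pow,
    padicValNat_primes (Ne.symm hne), mul_zero, zero_add, padicValNat.pow s] at hv₂
  have hpi : p ∣ i := by
    have : p ∣ f₂ * i := ⟨_, hv₂⟩
    exact (hp.dvd_mul.mp this).resolve_left hf₂
  have hv₁ := congrArg (padicValNat l₁) h
  rw [padicValNat.mul h1 h2, padicValNat.pow l₂, padicValNat.prime_pow,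
    padicValNat_primes hne, mul_zero, add_zero, padicValNat.pow s] at hv₁
  apply hf₁
  have h3 : p ∣ f₁ + f₁ * (c * (p - 1)) * i := ⟨_, hv₁⟩
  exact (Nat.dvd_add_left (Dvd.dvd.mul_left hpi _)).mp h3


/-- Crossing form: for distinct primes `l₁ ≠ l₂`, exponents `f₁ f₂` prime to `p` and any `c`,
there is a prime `r ≡ 1 (mod p)` outside a given finite set such that `n₁ = l₁ ^ f₁` is not a
`p`-th power mod `r` and `n₂ = l₂ ^ f₂` is `n₁ ^ c` times a nonzero `p`-th power mod `r`. -/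
theorem ax_exists_crossing_prime (hD : ax_DensityOracle) (p : ℕ) [hpF : Fact p.Prime]
    (l₁ l₂ : ℕ) (hl₁ : l₁.Prime) (hl₂ : l₂.Prime) (hne : l₁ ≠ l₂) (f₁ f₂ : ℕ)
    (hf₁ : ¬ p ∣ f₁) (hf₂ : ¬ p ∣ f₂) (c : ℕ) (S : Finset ℕ) :
    ∃ r : ℕ, r.Prime ∧ r ∉ S ∧ r % p = 1 ∧ r ≠ l₁ ∧ r ≠ l₂ ∧
      (¬ ∃ x : ZMod r, x ^ p = ((l₁ ^ f₁ : ℕ) : ZMod r)) ∧
      ∃ x : ZMod r, x ≠ 0 ∧
        ((l₂ ^ f₂ : ℕ) : ZMod r) = ((l₁ ^ f₁ : ℕ) : ZMod r) ^ c * x ^ p := by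
  have hp := hpF.out
  have hf₁0 : f₁ ≠ 0 := by rintro rfl; exact hf₁ (dvd_zero p)
  have hf₂0 : f₂ ≠ 0 := by rintro rfl; exact hf₂ (dvd_zero p)
  obtain ⟨r, hr, hrS, hmod, hra, hrb, ⟨x, hx⟩, hnb⟩ :=
    ax_exists_aux_prime hD p (l₂ ^ f₂ * (l₁ ^ f₁) ^ (c * (p - 1))) (l₁ ^ f₁)
      (Nat.mul_pos (pow_pos hl₂.pos _) (pow_pos (pow_pos hl₁.pos _) _)) (pow_pos hl₁.pos _)
      (ax_hind hp hl₁ hl₂ hne hf₁ hf₂) S
  have : Fact r.Prime := ⟨hr⟩
  refine ⟨r, hr, hrS, hmod, ?_, ?_, hnb, ?_⟩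
  · rintro rfl
    exact hrb (dvd_pow_self _ hf₁0)
  · rintro rfl
    exact hra (Dvd.dvd.mul_right (dvd_pow_self _ hf₂0) _)
  · obtain ⟨t, rfl⟩ : ∃ t, p = t + 1 := ⟨p - 1, by have := hp.one_lt; omega⟩
    set u : ZMod r := ((l₁ ^ f₁ : ℕ) : ZMod r) with hu
    set n₂ : ZMod r := ((l₂ ^ f₂ : ℕ) : ZMod r) with hn₂
    have hu0 : u ≠ 0 := by
      rw [hu, Ne, ZMod.natCast_eq_zero_iff]
      exact hrb
    have hx' : x ^ (t + 1) = n₂ * u ^ (c * t) := by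
      rw [hx]
      push_cast
      rw [hu, hn₂]
      push_cast
      simp [pow_mul]
    have hx0 : x ≠ 0 := by
      rintro rfl
      rw [zero_pow (Nat.succ_ne_zero t)] at hx
      exact hra ((ZMod.natCast_eq_zero_iff _ r).mp hx.symm)
    refine ⟨x * u⁻¹ ^ c, mul_ne_zero hx0 (pow_ne_zero _ (inv_ne_zero hu0)), ?_⟩
    symm
    calc u ^ c * (x * u⁻¹ ^ c) ^ (t + 1)
        = u ^ c * (n₂ * u ^ (c * t) * (u⁻¹) ^ (c * (t + 1))) := by
          rw [mul_pow, hx', ← pow_mul]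
      _ = n₂ * (u * u⁻¹) ^ (c * (t + 1)) := by rw [mul_pow]; ring
      _ = n₂ := by rw [mul_inv_cancel₀ hu0, one_pow, mul_one]

end Fermat.Agent.S14
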