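import Mathlib
import Fermat.Agent.S14.AuxPrime.Main
import Fermat.Agent.S14.Density.Infinite

/-!
# S14 / AuxPrime / Final

The density statement `ax_DensityOracle` from the landed density block, hence the unconditional
existence of the auxiliary prime of the crossing argument.
-/

namespace Fermat.Agent.S14

open NumberField IsDedekindDomain

theorem ax_densityOracle : ax_DensityOracle := by
  intro k E₁ E₂ _ _ _ _ _ _ _ _ _ _ _ _ hlt T
  have hinf := dn_infinite_split_not_split (k := k) E₂ E₁ hlt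
  have hfin : {v : HeightOneSpectrum (𝓞 k) | v.asIdeal ∈ T}.Finite := by
    apply Set.Finite.preimage _ T.finite_toSet
    intro v _ w _ h
    exact HeightOneSpectrum.ext h
  obtain ⟨v, ⟨hv₁, hvp, hv₂, -⟩, hvT⟩ := (hinf.sdiff hfin).nonempty
  refine ⟨v.asIdeal, v.isPrime, hvT, hvp, ?_, ?_⟩
  · intro Q hQ hQv
    exact (dn_mem_splitSet_iff v).mp hv₁ Q hQv
  · intro h
    apply hv₂
    rw [dn_mem_splitSet_iff]
    intro P hP hPv
    exact h P hP hPv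

/-- **Auxiliary prime, general form.** For `a b > 0` such that no `b * a ^ i` is a `p`-th power,
there is a prime `r ≡ 1 (mod p)` outside any given finite set, not dividing `a b`, such that `a`
is a `p`-th power modulo `r` but `b` is not. -/
theorem ax_exists_aux_prime' (p : ℕ) [Fact p.Prime] (a b : ℕ)
    (ha : 0 < a) (hb : 0 < b) (hind : ∀ i s : ℕ, b * a ^ i ≠ s ^ p) (S : Finset ℕ) :
    ∃ r : ℕ, r.Prime ∧ r ∉ S ∧ r % p = 1 ∧ ¬ r ∣ a ∧ ¬ r ∣ b ∧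
      (∃ x : ZMod r, x ^ p = (a : ZMod r)) ∧ ¬ ∃ x : ZMod r, x ^ p = (b : ZMod r) :=
  ax_exists_aux_prime ax_densityOracle p a b ha hb hind S

/-- **Auxiliary prime, crossing form.** For distinct primes `l₁ ≠ l₂`, exponents `f₁ f₂` prime
to `p` and any `c`, there is a prime `r ≡ 1 (mod p)` outside a given finite set, `r ≠ l₁, l₂`,
such that `l₁ ^ f₁` is not a `p`-th power mod `r` while `l₂ ^ f₂` is `(l₁ ^ f₁) ^ c` times a
nonzero `p`-th power mod `r`. -/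
theorem ax_exists_crossing_prime' (p : ℕ) [Fact p.Prime]
    (l₁ l₂ : ℕ) (hl₁ : l₁.Prime) (hl₂ : l₂.Prime) (hne : l₁ ≠ l₂) (f₁ f₂ : ℕ)
    (hf₁ : ¬ p ∣ f₁) (hf₂ : ¬ p ∣ f₂) (c : ℕ) (S : Finset ℕ) :
    ∃ r : ℕ, r.Prime ∧ r ∉ S ∧ r % p = 1 ∧ r ≠ l₁ ∧ r ≠ l₂ ∧
      (¬ ∃ x : ZMod r, x ^ p = ((l₁ ^ f₁ : ℕ) : ZMod r)) ∧
      ∃ x : ZMod r, x ≠ 0 ∧
        ((l₂ ^ f₂ : ℕ) : ZMod r) = ((l₁ ^ f₁ : ℕ) : ZMod r) ^ c * x ^ p :=
  ax_exists_crossing_prime ax_densityOracle p l₁ l₂ hl₁ hl₂ hne f₁ f₂ hf₁ hf₂ c S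

end Fermat.Agent.S14
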